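import Fermat.Agent.AVE.Stab

set_option autoImplicit false

open Module IntermediateField

namespace Fermat.Agent.AVE

variable {K Ω : Type*} [Field K] [Field Ω] [Algebra K Ω]

theorem transcendental_of_linearIndependent_pow {A : IntermediateField K Ω} {x : Ω}
    (h : LinearIndependent A fun n : ℕ => x ^ n) : Transcendental A x := by
  rw [transcendental_iff]
  intro p hp
  rw [Polynomial.aeval_eq_sum_range] at hp
  have h1 := linearIndependent_iff'.mp h (Finset.range (p.natDegree + 1)) p.coeff hp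
  ext i
  rw [Polynomial.coeff_zero]
  by_cases hi : i ≤ p.natDegree
  · rw [h1 i (Finset.mem_range.mpr (by omega))]
  · rw [Polynomial.coeff_eq_zero_of_natDegree_lt (by omega)]

/-- tower law for algebraic extension of constants -/
theorem field_descend (k0 E0 kb Ka : IntermediateField K Ω) (h0 : k0 ≤ E0) (hkb0 : k0 ≤ kb)
    (halg : ∀ x ∈ kb, IsAlgebraic k0 x) (hld : (E0 ⊔ kb).LinearDisjoint Ka)
    (hfg : ∃ s : Finset Ω, E0 = k0 ⊔ adjoin K (s : Set Ω)) (hu : ∃ u ∈ E0, Transcendental k0 u)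
    (Φ : Ω) (hΦ : Φ ∈ E0 ⊔ Ka) :
    ∃ S : Finset Ω, (S : Set Ω) ⊆ kb ∧ ∀ k', k0 ⊔ adjoin K (S : Set Ω) ≤ k' → k' ≤ kb →
      relfinrank (k0 ⊔ Ka ⊔ K⟮Φ⟯) (E0 ⊔ Ka) * relfinrank E0 (E0 ⊔ k') =
        relfinrank k0 k' * relfinrank (kb ⊔ Ka ⊔ K⟮Φ⟯) (E0 ⊔ kb ⊔ Ka) := by
  classical
  set L := k0 ⊔ Ka ⊔ K⟮Φ⟯ with hL
  set M := E0 ⊔ Ka with hM
  have hLM : L ≤ M := by
    refine sup_le (sup_le_sup_right h0 Ka) ?_
    rw [adjoin_simple_le_iff]; exact hΦ
  have hLkb : L ⊔ kb = kb ⊔ Ka ⊔ K⟮Φ⟯ := by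
    apply le_antisymm
    · exact sup_le (sup_le_sup_right (sup_le_sup_right hkb0 _) _)
        (le_trans le_sup_left le_sup_left)
    · refine sup_le (sup_le le_sup_right ?_) ?_
      · exact le_trans (le_trans le_sup_right le_sup_left) le_sup_left
      · exact le_trans le_sup_right le_sup_left
  have hMkb : M ⊔ kb = E0 ⊔ kb ⊔ Ka := by
    rw [hM, sup_assoc, sup_comm Ka kb, ← sup_assoc]
  have hLalg : ∀ x ∈ L ⊔ kb, IsAlgebraic L x :=
    isAlgebraic_sup fun x hx => isAlgebraic_mono (le_trans le_sup_left le_sup_left) (halg x hx)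
  by_cases hfin : relfinrank L M = 0
  · refine ⟨∅, by simp, fun k' _ _ => ?_⟩
    rw [hfin, zero_mul]
    by_cases h1 : relfinrank (kb ⊔ Ka ⊔ K⟮Φ⟯) (E0 ⊔ kb ⊔ Ka) = 0
    · rw [h1, mul_zero]
    exfalso
    rw [← hLkb, ← hMkb] at h1
    have h2 := isAlgebraic_of_relfinrank (sup_le_sup_right hLM kb) h1
    obtain ⟨s, hs⟩ := hfg
    have h3 : M = L ⊔ adjoin K (s : Set Ω) := by
      apply le_antisymm
      · rw [hM, hs]
        refine sup_le (sup_le ?_ le_sup_right) ?_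
        · exact le_trans (le_trans le_sup_left le_sup_left) le_sup_left
        · exact le_trans (le_trans le_sup_right le_sup_left) le_sup_left
      · refine sup_le hLM ?_
        refine le_trans ?_ (le_sup_left : E0 ≤ E0 ⊔ Ka)
        rw [hs]
        exact le_sup_right
    apply relfinrank_ne_zero_of_fg (L := L) s _ (by rw [← h3]; exact hfin)
    intro x hx
    have hxM : x ∈ M := by
      rw [h3]
      exact (le_sup_right : _ ≤ L ⊔ adjoin K (s : Set Ω)) (subset_adjoin K _ hx)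
    exact isAlgebraic_trans le_sup_left hLalg (h2 x ((le_sup_left : M ≤ M ⊔ kb) hxM))
  · obtain ⟨S, hS, hst⟩ := stabilise (k0 := k0) hLM hfin hkb0
    refine ⟨S, hS, fun k' hk' hk'kb => ?_⟩
    have hk0k' : k0 ≤ k' := le_trans le_sup_left hk'
    have halg' : ∀ x ∈ k', IsAlgebraic k0 x := fun x hx => halg x (hk'kb hx)
    have e1 := relfinrank_mul_relfinrank hLM (le_sup_left : M ≤ M ⊔ k')
    have e2 := relfinrank_mul_relfinrank (le_sup_left : L ≤ L ⊔ k')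
      (sup_le_sup_right hLM k')
    -- (b)
    have e3 : relfinrank M (M ⊔ k') = relfinrank E0 (E0 ⊔ k') := by
      have h1 : LD E0 (E0 ⊔ kb) (E0 ⊔ Ka) := LD_shift hld le_sup_left
      have h2 : LD E0 (E0 ⊔ k') (E0 ⊔ Ka) := h1.mono (sup_le_sup_left hk'kb _)
      have h3 := relrank_sup (k := E0) (C := E0 ⊔ Ka) (k' := E0 ⊔ k') le_sup_left le_sup_left
        (isAlgebraic_sup fun x hx => isAlgebraic_mono h0 (halg' x hx)) h2
      have h4 : E0 ⊔ Ka ⊔ (E0 ⊔ k') = M ⊔ k' := by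
        rw [hM, ← sup_assoc, sup_eq_left.mpr (le_sup_left : E0 ≤ E0 ⊔ Ka)]
      rw [h4] at h3
      exact congrArg Cardinal.toNat h3
    -- (c)
    have hC1 : LD k0 (E0 ⊔ kb) (k0 ⊔ Ka) := LD_shift hld (le_trans h0 le_sup_left)
    have htr : Transcendental ↥(k0 ⊔ Ka ⊔ k') Φ := by
      intro hΦalg
      have hΦ1 : IsAlgebraic ↥(k0 ⊔ Ka) Φ := by
        refine isAlgebraic_trans le_sup_left ?_ hΦalg
        exact isAlgebraic_sup fun x hx => isAlgebraic_mono le_sup_left (halg' x hx)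
      have hLalg1 : ∀ x ∈ L, IsAlgebraic ↥(k0 ⊔ Ka) x := by
        refine isAlgebraic_sup ?_
        have h1 : ∀ x ∈ (adjoin ↥(k0 ⊔ Ka) {Φ} : IntermediateField ↥(k0 ⊔ Ka) Ω),
            IsAlgebraic ↥(k0 ⊔ Ka) x := by
          have := isAlgebraic_adjoin_simple (K := ↥(k0 ⊔ Ka)) (x := Φ) hΦ1.isIntegral
          intro x hx
          exact (isAlgebraic_iff (S := (adjoin ↥(k0 ⊔ Ka) {Φ} :
            IntermediateField ↥(k0 ⊔ Ka) Ω))).mp (Algebra.IsAlgebraic.isAlgebraic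
              (⟨x, hx⟩ : (adjoin ↥(k0 ⊔ Ka) {Φ} : IntermediateField ↥(k0 ⊔ Ka) Ω)))
        intro x hx
        apply h1
        have h2 : K⟮Φ⟯ ≤ (adjoin ↥(k0 ⊔ Ka) {Φ}).restrictScalars K := by
          rw [restrictScalars_adjoin_eq_sup]; exact le_sup_right
        exact h2 hx
      have hMalg1 : ∀ x ∈ M, IsAlgebraic ↥(k0 ⊔ Ka) x := fun x hx =>
        isAlgebraic_trans le_sup_left hLalg1 (isAlgebraic_of_relfinrank hLM hfin x hx)
      obtain ⟨u, hu, hutr⟩ := hu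
      have h3 : LinearIndependent ↥(k0 ⊔ Ka) fun n : ℕ => u ^ n := by
        refine LDis.family hC1 _ (fun n => ?_) (linearIndependent_pow hutr)
        exact (pow_mem ((le_sup_left : E0 ≤ E0 ⊔ kb) hu) n)
      exact transcendental_of_linearIndependent_pow h3
        (hMalg1 u ((le_sup_left : E0 ≤ E0 ⊔ Ka) hu))
    have e4 : relfinrank L (L ⊔ k') = relfinrank k0 k' := by
      have h1 : LD k0 k' (k0 ⊔ Ka) := hC1.mono (le_trans hk'kb le_sup_right)
      have h2 := relrank_sup (k := k0) (C := k0 ⊔ Ka) (k' := k') le_sup_left hk0k' halg' h1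
      have h3 : LD (k0 ⊔ Ka) (k0 ⊔ Ka ⊔ k') (k0 ⊔ Ka ⊔ K⟮Φ⟯) :=
        LD_transcendental le_sup_left htr
      have h4 := relrank_sup (k := k0 ⊔ Ka) (C := k0 ⊔ Ka ⊔ K⟮Φ⟯) (k' := k0 ⊔ Ka ⊔ k')
        le_sup_left le_sup_left
        (isAlgebraic_sup fun x hx => isAlgebraic_mono le_sup_left (halg' x hx)) h3
      have h5 : k0 ⊔ Ka ⊔ K⟮Φ⟯ ⊔ (k0 ⊔ Ka ⊔ k') = L ⊔ k' := by
        rw [← hL, ← sup_assoc, sup_eq_left.mpr (le_sup_left : k0 ⊔ Ka ≤ L)]
      rw [h5, h2] at h4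
      exact congrArg Cardinal.toNat h4
    have e5 := hst k' hk' hk'kb
    rw [e4] at e2
    rw [e3, ← e2, e5, hLkb, hMkb] at e1
    exact e1

end Fermat.Agent.AVE
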