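import Mathlib

/-!
# Linear disjointness of subfields, in a concrete form

`LDis k A B`: every family of elements of `A` which is linearly independent over `k` stays
linearly independent over `B`.
-/

set_option autoImplicit false

open Module

namespace Fermat.Agent.AVE

variable {Ω : Type*} [Field Ω]

/-- Every family of `A` linearly independent over `k` is linearly independent over `B`. -/
def LDis (k A B : Subfield Ω) : Prop :=
  ∀ (n : ℕ) (e : Fin n → Ω), (∀ i, e i ∈ A) → LinearIndependent k e → LinearIndependent B e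

/-- Common denominators in the fraction field of a subring. -/
theorem exists_common_den (R : Subring Ω) {ι : Type*} (s : Finset ι) (g : ι → Ω)
    (hg : ∀ i ∈ s, g i ∈ Subfield.closure (R : Set Ω)) :
    ∃ d ∈ R, d ≠ 0 ∧ ∀ i ∈ s, d * g i ∈ R := by
  classical
  induction s using Finset.induction_on with
  | empty => exact ⟨1, R.one_mem, one_ne_zero, by simp⟩
  | insert a s ha ih =>
    obtain ⟨d, hd, hd0, h⟩ := ih fun i hi => hg i (Finset.mem_insert_of_mem hi)
    have h1 := hg a (Finset.mem_insert_self a s)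
    rw [Subfield.mem_closure_iff] at h1
    obtain ⟨y, hy, z, hz, hyz⟩ := h1
    rw [Subring.closure_eq] at hy hz
    rcases eq_or_ne z 0 with rfl | hz0
    · rw [div_zero] at hyz
      refine ⟨d, hd, hd0, fun i hi => ?_⟩
      rcases Finset.mem_insert.mp hi with rfl | hi
      · rw [← hyz, mul_zero]; exact R.zero_mem
      · exact h i hi
    · refine ⟨z * d, R.mul_mem hz hd, mul_ne_zero hz0 hd0, fun i hi => ?_⟩
      rcases Finset.mem_insert.mp hi with rfl | hi
      · rw [← hyz]
        have : z * d * (y / z) = d * y := by field_simp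
        rw [this]; exact R.mul_mem hd hy
      · rw [mul_assoc]; exact R.mul_mem hz (h i hi)

/-- The basic linear algebra argument. -/
theorem linearIndependent_closure (A0 A : Subfield Ω) (hA : A0 ≤ A) {J : Type*} (κ : J → Ω)
    (hκ : LinearIndependent A κ) (R : Subring Ω)
    (hR : ∀ r ∈ R, r ∈ Submodule.span A0 (Set.range κ)) {ι : Type*} (e : ι → Ω)
    (he : ∀ i, e i ∈ A) (hei : LinearIndependent A0 e) :
    LinearIndependent (Subfield.closure (R : Set Ω)) e := by
  classical
  rw [linearIndependent_iff']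
  intro s g hg i hi
  obtain ⟨d, hd, hd0, hden⟩ := exists_common_den R s (fun i => (g i : Ω)) fun i _ => (g i).2
  choose! c hc using fun i (hi : i ∈ s) =>
    (Finsupp.mem_span_range_iff_exists_finsupp.mp (hR _ (hden i hi)))
  set T : Finset J := s.biUnion fun i => (c i).support with hT
  have hcT : ∀ i ∈ s, ∑ j ∈ T, ((c i j : A0) : Ω) * κ j = d * (g i : Ω) := by
    intro i hi
    rw [← hc i hi, Finsupp.sum]
    symm
    refine Finset.sum_subset ?_ ?_
    · intro j hj
      exact Finset.mem_biUnion.mpr ⟨i, hi, hj⟩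
    · intro j _ hj
      rw [Finsupp.notMem_support_iff.mp hj]
      simp
  let b : J → A := fun j => ∑ i ∈ s, (⟨(c i j : Ω), hA (c i j).2⟩ : A) * ⟨e i, he i⟩
  have hb : ∀ j, (b j : Ω) = ∑ i ∈ s, ((c i j : A0) : Ω) * e i := by
    intro j
    simp only [b, Subfield.coe_mul, AddSubmonoidClass.coe_finsetSum]
  have hsum : ∑ j ∈ T, b j • κ j = 0 := by
    have h1 : ∑ j ∈ T, b j • κ j = ∑ i ∈ s, (∑ j ∈ T, ((c i j : A0) : Ω) * κ j) * e i := by
      simp_rw [Subfield.smul_def, smul_eq_mul, hb, Finset.sum_mul]
      rw [Finset.sum_comm]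
      refine Finset.sum_congr rfl fun i _ => Finset.sum_congr rfl fun j _ => by ring
    rw [h1]
    have h2 : ∑ i ∈ s, (∑ j ∈ T, ((c i j : A0) : Ω) * κ j) * e i =
        d * ∑ i ∈ s, (g i : Ω) * e i := by
      rw [Finset.mul_sum]
      refine Finset.sum_congr rfl fun i hi => ?_
      rw [hcT i hi]; ring
    rw [h2]
    have h3 : ∑ i ∈ s, (g i : Ω) * e i = 0 := by
      simpa [Subfield.smul_def, smul_eq_mul] using hg
    rw [h3, mul_zero]
  have hb0 := linearIndependent_iff'.mp hκ T b hsum
  have hc0 : ∀ j ∈ T, ∀ i ∈ s, c i j = 0 := by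
    intro j hj
    have h1 := hb0 j hj
    have h2 : ∑ i ∈ s, (c i j) • e i = 0 := by
      have := hb j
      rw [h1] at this
      simp only [Subfield.smul_def, smul_eq_mul]
      rw [← this]; rfl
    exact linearIndependent_iff'.mp hei s (fun i => c i j) h2
  have h4 := hcT i hi
  have h5 : ∑ j ∈ T, ((c i j : A0) : Ω) * κ j = 0 :=
    Finset.sum_eq_zero fun j hj => by rw [hc0 j hj i hi]; simp
  rw [h5] at h4
  have h6 : (g i : Ω) = 0 := by
    rcases mul_eq_zero.mp h4.symm with h | h
    · exact absurd h hd0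
    · exact h
  exact_mod_cast h6

end Fermat.Agent.AVE
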