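import Fermat.Agent.AVE.Descend
import Fermat.Agent.AVb.Free
import Fermat.Agent.AVb.Fd
import Fermat.Agent.AVn.Stmts

set_option autoImplicit false

universe u

open Module IntermediateField

namespace Fermat.Agent.AVE

open Fermat.Agent.AVn

/-- linear disjointness from a field is inherited by algebraic extensions, over an algebraically
closed base field -/
theorem linearDisjoint_of_isAlgebraic {K Ω : Type u} [Field K] [IsAlgClosed K] [Field Ω]
    [Algebra K Ω] {E E' F : IntermediateField K Ω} (h : E.LinearDisjoint F) (hle : E ≤ E')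
    (halg : ∀ x ∈ E', IsAlgebraic E x) : E'.LinearDisjoint F := by
  obtain ⟨s, hs⟩ := exists_isTranscendenceBasis K F
  have h1 := AVb.algebraicIndependent_of_linearDisjoint h hs.1
  refine AVb.linearDisjoint_of_algebraicIndependent E' F (Subtype.val : s → F)
    (by simpa using hs.isAlgebraic) ?_
  have : Algebra.IsAlgebraic E (extendScalars hle) := by
    refine ⟨fun y => ?_⟩
    exact (isAlgebraic_iff (S := extendScalars hle)).mpr (halg y.1 y.2)
  have hst : IsScalarTower E (extendScalars hle) Ω := IsScalarTower.of_algebraMap_eq fun _ => rfl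
  exact AlgebraicIndependent.extendScalars (R := E) (A := Ω) (extendScalars hle) h1

theorem trdeg_tower {K Ω : Type u} [Field K] [Field Ω] [Algebra K Ω] {k l m : IntermediateField K Ω} (h1 : k ≤ l) (h2 : l ≤ m) :
    Algebra.trdeg k (extendScalars h1) + Algebra.trdeg l (extendScalars h2) =
      Algebra.trdeg k (extendScalars (h1.trans h2)) := by
  let _ : Algebra (extendScalars h1) (extendScalars (h1.trans h2)) :=
    (inclusion (show extendScalars h1 ≤ extendScalars (h1.trans h2) from h2)).toAlgebra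
  have : IsScalarTower k (extendScalars h1) (extendScalars (h1.trans h2)) :=
    IsScalarTower.of_algebraMap_eq fun _ => rfl
  have f1 : FaithfulSMul k (extendScalars h1) :=
    (faithfulSMul_iff_algebraMap_injective _ _).mpr (algebraMap k (extendScalars h1)).injective
  have f2 : FaithfulSMul (extendScalars h1) (extendScalars (h1.trans h2)) :=
    (faithfulSMul_iff_algebraMap_injective _ _).mpr (inclusion_injective
      (show extendScalars h1 ≤ extendScalars (h1.trans h2) from h2))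
  have h := trdeg_add_eq k (extendScalars h1) (A := extendScalars (h1.trans h2))
  exact h

/-- the transcendence degree is not changed by algebraic extension of the constants -/
theorem trdeg_sup_of_isAlgebraic {K Ω : Type u} [Field K] [Field Ω] [Algebra K Ω] {k kb E : IntermediateField K Ω} (h1 : k ≤ kb)
    (halg : ∀ x ∈ kb, IsAlgebraic k x) (hE : k ≤ E) :
    Algebra.trdeg kb (extendScalars (le_sup_right : kb ≤ E ⊔ kb)) =
      Algebra.trdeg k (extendScalars hE) := by
  have e1 := trdeg_tower h1 (le_sup_right : kb ≤ E ⊔ kb)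
  have e2 := trdeg_tower hE (le_sup_left : E ≤ E ⊔ kb)
  have a1 : Algebra.IsAlgebraic k (extendScalars h1) :=
    ⟨fun y => (isAlgebraic_iff (S := extendScalars h1)).mpr (halg y.1 y.2)⟩
  have a2 : Algebra.IsAlgebraic E (extendScalars (le_sup_left : E ≤ E ⊔ kb)) :=
    ⟨fun y => (isAlgebraic_iff (S := extendScalars (le_sup_left : E ≤ E ⊔ kb))).mpr
      (isAlgebraic_sup
        (fun x hx => isAlgebraic_mono hE (halg x hx)) y.1 y.2)⟩
  rw [trdeg_eq_zero, zero_add] at e1
  rw [trdeg_eq_zero (R := E), add_zero] at e2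
  rw [e1, e2]

theorem trdeg_map {K Ω Ω' : Type u} [Field K] [Field Ω] [Algebra K Ω] [Field Ω'] [Algebra K Ω']
    (θ : Ω →ₐ[K] Ω') {k E : IntermediateField K Ω} (h : k ≤ E)
    (h' : k.map θ ≤ E.map θ) :
    Algebra.trdeg (k.map θ) (extendScalars h') = Algebra.trdeg k (extendScalars h) := by
  let e1 : k ≃ₐ[K] k.map θ := IntermediateField.equivMap k θ
  let e2 : E ≃ₐ[K] E.map θ := IntermediateField.equivMap E θ
  let _ : Algebra k (k.map θ) := (e1 : k →+* k.map θ).toAlgebra
  let _ : Algebra k (extendScalars h') :=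
    ((algebraMap (k.map θ) (extendScalars h')).comp (e1 : k →+* k.map θ)).toAlgebra
  have : IsScalarTower k (k.map θ) (extendScalars h') :=
    IsScalarTower.of_algebraMap_eq fun _ => rfl
  have f1 : FaithfulSMul k (k.map θ) :=
    (faithfulSMul_iff_algebraMap_injective _ _).mpr e1.injective
  have f2 : FaithfulSMul (k.map θ) (extendScalars h') :=
    (faithfulSMul_iff_algebraMap_injective _ _).mpr
      (algebraMap (k.map θ) (extendScalars h')).injective
  have a1 : Algebra.IsAlgebraic k (k.map θ) := by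
    refine ⟨fun y => ?_⟩
    obtain ⟨x, rfl⟩ := e1.surjective y
    exact isAlgebraic_algebraMap (R := k) (A := k.map θ) x
  have e := trdeg_add_eq k (k.map θ) (A := extendScalars h')
  rw [trdeg_eq_zero (R := k) (A := k.map θ), zero_add] at e
  rw [e]
  let e3 : extendScalars h ≃ₐ[k] extendScalars h' :=
    AlgEquiv.ofRingEquiv (f := (e2 : E ≃+* E.map θ)) fun x => by
      apply Subtype.ext
      rfl
  exact e3.symm.trdeg_eq

variable {K : Type u} [Field K] {g : ℕ} (A : AVar K g) {Ω Ω' : Type u} [Field Ω] [Algebra K Ω]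
  [Field Ω'] [Algebra K Ω']

theorem gen_of_isAlgebraic [IsAlgClosed K] {E E' : IntermediateField K Ω} {a : A.Pt Ω}
    (ha : A.Gen E a) (hle : E ≤ E') (halg : ∀ x ∈ E', IsAlgebraic E x) : A.Gen E' a := by
  obtain ⟨φ, hφ, hld⟩ := ha
  exact ⟨φ, hφ, linearDisjoint_of_isAlgebraic hld hle halg⟩

theorem gen_map {E : IntermediateField K Ω} {a : A.Pt Ω} (ha : A.Gen E a) (θ : Ω →ₐ[K] Ω') :
    A.Gen (E.map θ) (A.map θ a) := by
  obtain ⟨φ, hφ, hld⟩ := ha
  refine ⟨θ.comp φ, by rw [A.map_comp, hφ], ?_⟩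
  have h1 := hld.map θ
  have h2 : (θ.comp φ).fieldRange = φ.fieldRange.map θ := by
    ext x
    simp only [AlgHom.mem_fieldRange, AlgHom.comp_apply, IntermediateField.mem_map]
    constructor
    · rintro ⟨y, rfl⟩; exact ⟨φ y, ⟨y, rfl⟩, rfl⟩
    · rintro ⟨_, ⟨y, rfl⟩, rfl⟩; exact ⟨y, rfl⟩
  have h3 : ∀ F1 F2 : IntermediateField K Ω', F1 = F2 → (E.map θ).LinearDisjoint F1 →
      (E.map θ).LinearDisjoint F2 := by
    rintro _ _ rfl h; exact h
  exact h3 _ _ h2.symm h1

theorem ev_map_aux (θ : Ω →ₐ[K] Ω') (w : A.Pt Ω) (f : A.F) :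
    A.ev (A.map θ w) f = θ (A.ev w f) := by
  by_cases h : ∃ φ : A.F →ₐ[K] Ω, A.map φ A.gen = w
  · obtain ⟨φ, rfl⟩ := h
    rw [A.ev_eq, ← A.map_comp, A.ev_eq]
    rfl
  · have h2 : ¬ ∃ φ : A.F →ₐ[K] Ω', A.map φ A.gen = A.map θ w := by
      rintro ⟨φ, hφ⟩
      apply h
      apply A.exists_ev
      have h3 : A.fd (A.map θ w) = φ.fieldRange := by
        rw [← hφ]; exact A.fd_map_gen φ
      rw [A.fd_map] at h3
      have e1 : (A.fd w) ≃ₐ[K] (A.fd w).map θ := IntermediateField.equivMap _ _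
      have e2 : A.F ≃ₐ[K] φ.fieldRange := AlgEquiv.ofInjectiveField φ
      rw [e1.trdeg_eq, h3, ← e2.trdeg_eq, A.trdeg_F]
    rw [AVar.ev, dif_neg h2, AVar.ev, dif_neg h, map_zero]

theorem ht_map (θ : Ω →ₐ[K] Ω') (k E : IntermediateField K Ω) (a : A.Pt Ω) (f : A.F)
    (P : A.Pt Ω) : A.ht (k.map θ) (E.map θ) (A.map θ a) f (A.map θ P) = A.ht k E a f P := by
  unfold AVar.ht
  rw [← A.map_sub, ev_map_aux, A.fd_map, ← IntermediateField.map_sup, ← IntermediateField.map_sup]
  have h1 : K⟮θ (A.ev (P - a) f)⟯ = (K⟮A.ev (P - a) f⟯).map θ := by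
    rw [adjoin_map, Set.image_singleton]
  rw [h1, ← IntermediateField.map_sup, relfinrank_map_map]

theorem ev_mem_fd_aux (z : A.Pt Ω) (f : A.F) : A.ev z f ∈ A.fd z := by
  by_cases h : ∃ φ : A.F →ₐ[K] Ω, A.map φ A.gen = z
  · obtain ⟨φ, rfl⟩ := h
    rw [A.ev_eq, A.fd_map_gen]
    exact ⟨f, rfl⟩
  · rw [AVar.ev, dif_neg h]
    exact zero_mem _

/-- Block E1: quadraticity over algebraically closed constant fields. -/
def QuadClosed : Prop :=
  ∀ (Ω : Type u) [Field Ω] [IsAlgClosed Ω] [Algebra K Ω] (k E : IntermediateField K Ω)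
    (hkE : k ≤ E), IsAlgClosed k →
    (∃ s : Finset Ω, E = k ⊔ IntermediateField.adjoin K (s : Set Ω)) →
    Algebra.trdeg k (IntermediateField.extendScalars hkE) = 1 →
    ∀ (f : A.F), A.Even f → ∀ (P a : A.Pt Ω), A.fd P ≤ E → A.Gen E a → ∀ m : ℕ,
      A.ht k E a f (m • P) = m ^ 2 * A.ht k E a f P

theorem exists_transcendental_of_trdeg {F E : Type u} [Field F] [Field E] [Algebra F E]
    (h : Algebra.trdeg F E = 1) : ∃ u : E, Transcendental F u := by
  have h1 : Algebra.Transcendental F E := by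
    rw [← trdeg_ne_zero_iff, h]; exact one_ne_zero
  exact h1.transcendental

theorem quad_of_isAlgClosed [IsAlgClosed K] (h : QuadClosed A) (Ω : Type u) [Field Ω]
    [IsAlgClosed Ω] [Algebra K Ω] (k E : IntermediateField K Ω) (hkE : k ≤ E)
    (hfg : ∃ s : Finset Ω, E = k ⊔ IntermediateField.adjoin K (s : Set Ω))
    (hu : ∃ u ∈ E, Transcendental k u)
    (htr : Algebra.trdeg k (IntermediateField.extendScalars hkE) = 1)
    (f : A.F) (hf : A.Even f) (P a : A.Pt Ω) (hP : A.fd P ≤ E) (ha : A.Gen E a) (m : ℕ) :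
    A.ht k E a f (m • P) = m ^ 2 * A.ht k E a f P := by
  classical
  set kb : IntermediateField K Ω := (algebraicClosure k Ω).restrictScalars K with hkb
  have halg : ∀ x ∈ kb, IsAlgebraic k x := fun x hx => mem_algebraicClosure_iff.mp hx
  have hk0 : k ≤ kb := fun x hx => mem_algebraicClosure_iff.mpr (isAlgebraic_mem hx)
  have hac : IsAlgClosed kb := IsAlgClosure.isAlgClosed (R := k) (K := algebraicClosure k Ω)
  have hEalg : ∀ x ∈ E ⊔ kb, IsAlgebraic E x :=
    isAlgebraic_sup fun x hx => isAlgebraic_mono hkE (halg x hx)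
  have haE : A.Gen (E ⊔ kb) a := gen_of_isAlgebraic A ha le_sup_left hEalg
  have hld : (E ⊔ kb).LinearDisjoint (A.fd a) := by
    obtain ⟨φ, rfl, hl⟩ := haE
    have h3 : ∀ F1 F2 : IntermediateField K Ω, F1 = F2 → (E ⊔ kb).LinearDisjoint F1 →
        (E ⊔ kb).LinearDisjoint F2 := by
      rintro _ _ rfl h; exact h
    exact h3 _ _ (A.fd_map_gen φ).symm hl
  have hPm : A.fd (m • P) ≤ E := (A.fd_nsmul_le m P).trans hP
  have hΦ : ∀ Q : A.Pt Ω, A.fd Q ≤ E → A.ev (Q - a) f ∈ E ⊔ A.fd a := fun Q hQ =>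
    (A.fd_sub_le Q a).trans (sup_le_sup_right hQ _) (ev_mem_fd_aux A (Q - a) f)
  obtain ⟨S1, hS1, h1⟩ := field_descend k E kb (A.fd a) hkE hk0 halg hld hfg hu _ (hΦ P hP)
  obtain ⟨S2, hS2, h2⟩ := field_descend k E kb (A.fd a) hkE hk0 halg hld hfg hu _ (hΦ _ hPm)
  set k' := k ⊔ adjoin K ((S1 ∪ S2 : Finset Ω) : Set Ω) with hk'
  have hk'kb : k' ≤ kb := by
    refine sup_le hk0 (adjoin_le_iff.mpr ?_)
    rw [Finset.coe_union]
    exact Set.union_subset hS1 hS2
  have e1 := h1 k' (sup_le_sup_left (adjoin.mono K _ _ (by simp)) k) hk'kb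
  have e2 := h2 k' (sup_le_sup_left (adjoin.mono K _ _ (by simp)) k) hk'kb
  have hc : relfinrank E (E ⊔ k') ≠ 0 := by
    have h3 : E ⊔ k' = E ⊔ adjoin K ((S1 ∪ S2 : Finset Ω) : Set Ω) := by
      rw [hk', ← sup_assoc, sup_eq_left.mpr hkE]
    rw [h3]
    refine relfinrank_ne_zero_of_fg _ fun x hx => isAlgebraic_mono hkE (halg x ?_)
    rw [Finset.mem_union] at hx
    rcases hx with hx | hx
    · exact hS1 hx
    · exact hS2 hx
  have hfg' : ∃ s : Finset Ω, E ⊔ kb = kb ⊔ IntermediateField.adjoin K (s : Set Ω) := by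
    obtain ⟨s, hs⟩ := hfg
    refine ⟨s, ?_⟩
    rw [hs, sup_comm _ kb, ← sup_assoc, sup_eq_left.mpr hk0]
  have htr' : Algebra.trdeg kb (extendScalars (le_sup_right : kb ≤ E ⊔ kb)) = 1 := by
    rw [trdeg_sup_of_isAlgebraic hk0 halg hkE, htr]
  have e3 := h Ω kb (E ⊔ kb) le_sup_right hac hfg' htr' f hf P a (hP.trans le_sup_left) haE m
  have e1' : A.ht k E a f P * relfinrank E (E ⊔ k') =
      relfinrank k k' * A.ht kb (E ⊔ kb) a f P := e1
  have e2' : A.ht k E a f (m • P) * relfinrank E (E ⊔ k') =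
      relfinrank k k' * A.ht kb (E ⊔ kb) a f (m • P) := e2
  apply Nat.eq_of_mul_eq_mul_right (Nat.pos_of_ne_zero hc)
  rw [e2', e3, mul_assoc, e1']
  ring

/-- **Block E2**: quadraticity over arbitrary constant fields. -/
theorem quadStmt_of_closed [IsAlgClosed K] (h : QuadClosed A) : A.QuadStmt := by
  intro Ω _ _ k E hkE hfg htr f hf P a hP ha m
  let θ : Ω →ₐ[K] AlgebraicClosure Ω := IsScalarTower.toAlgHom K Ω (AlgebraicClosure Ω)
  rw [← ht_map A θ k E a f P, ← ht_map A θ k E a f (m • P), A.map_nsmul]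
  have hle : k.map θ ≤ E.map θ := IntermediateField.map_mono θ hkE
  have hfg' : ∃ s : Finset (AlgebraicClosure Ω),
      E.map θ = k.map θ ⊔ IntermediateField.adjoin K (s : Set (AlgebraicClosure Ω)) := by
    classical
    obtain ⟨s, hs⟩ := hfg
    refine ⟨s.image θ, ?_⟩
    rw [hs, IntermediateField.map_sup, adjoin_map, Finset.coe_image]
  have htr' : Algebra.trdeg (k.map θ) (extendScalars hle) = 1 := by
    rw [trdeg_map θ hkE hle, htr]
  have hu : ∃ u ∈ E.map θ, Transcendental (k.map θ) u := by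
    obtain ⟨u, hu⟩ := exists_transcendental_of_trdeg htr'
    refine ⟨u, u.2, fun hal => hu ?_⟩
    exact (isAlgebraic_iff (S := extendScalars hle)).mpr hal
  have hP' : A.fd (A.map θ P) ≤ E.map θ := A.fd_map_le θ hP
  exact quad_of_isAlgClosed A h (AlgebraicClosure Ω) (k.map θ) (E.map θ) hle hfg' hu htr' f hf
    (A.map θ P) (A.map θ a) hP' (gen_map A ha θ) m

end Fermat.Agent.AVE
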