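import Fermat.Agent.AVE.Tower

set_option autoImplicit false

open Module IntermediateField

namespace Fermat.Agent.AVE

variable {K Ω : Type*} [Field K] [Field Ω] [Algebra K Ω]

theorem isAlgebraic_mono {L L' : IntermediateField K Ω} (h : L ≤ L') {x : Ω}
    (hx : IsAlgebraic L x) : IsAlgebraic L' x :=
  IsAlgebraic.tower_top_of_subalgebra_le (A := L.toSubalgebra) (B := L'.toSubalgebra) h hx

theorem isAlgebraic_trans {L L' : IntermediateField K Ω} (h : L ≤ L')
    (halg : ∀ y ∈ L', IsAlgebraic L y) {x : Ω} (hx : IsAlgebraic L' x) : IsAlgebraic L x := by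
  have : Algebra.IsAlgebraic L (extendScalars h) := by
    refine ⟨fun y => ?_⟩
    exact (isAlgebraic_iff (S := extendScalars h)).mpr (halg y.1 y.2)
  have hx' : IsAlgebraic (extendScalars h) x := hx
  exact hx'.restrictScalars L

theorem isAlgebraic_mem {L : IntermediateField K Ω} {x : Ω} (hx : x ∈ L) : IsAlgebraic L x :=
  isAlgebraic_algebraMap (⟨x, hx⟩ : L)

/-- elements of `L ⊔ M` are algebraic over `L` if those of `M` are -/
theorem isAlgebraic_sup {L M : IntermediateField K Ω} (halg : ∀ y ∈ M, IsAlgebraic L y) :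
    ∀ y ∈ L ⊔ M, IsAlgebraic L y := by
  intro y hy
  have h0 : L ⊔ M = (adjoin L (M : Set Ω)).restrictScalars K := by
    rw [restrictScalars_adjoin_eq_sup, adjoin_self]
  rw [h0, mem_restrictScalars] at hy
  have h1 := adjoin_toSubalgebra_of_isAlgebraic (F := L) (S := (M : Set Ω)) halg
  have h2 : y ∈ Algebra.adjoin L (M : Set Ω) := by rw [← h1]; exact hy
  induction h2 using Algebra.adjoin_induction with
  | mem z hz => exact halg z hz
  | algebraMap c => exact isAlgebraic_algebraMap c
  | add a b ha hb h1 h2 =>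
    refine IsAlgebraic.add (h1 ?_) (h2 ?_)
    · exact (SetLike.le_def.mp (algebra_adjoin_le_adjoin _ _)) ha
    · exact (SetLike.le_def.mp (algebra_adjoin_le_adjoin _ _)) hb
  | mul a b ha hb h1 h2 =>
    refine IsAlgebraic.mul (h1 ?_) (h2 ?_)
    · exact (SetLike.le_def.mp (algebra_adjoin_le_adjoin _ _)) ha
    · exact (SetLike.le_def.mp (algebra_adjoin_le_adjoin _ _)) hb

theorem linearIndependent_mono {C D : IntermediateField K Ω} (h : C ≤ D) {ι : Type*} {w : ι → Ω}
    (hw : LinearIndependent D w) : LinearIndependent C w := by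
  rw [linearIndependent_iff'] at hw ⊢
  intro s g hg i hi
  have h1 := hw s (fun i => ⟨(g i : Ω), h (g i).2⟩) hg i hi
  apply Subtype.ext
  exact congrArg (fun z : D => (z : Ω)) h1

theorem relfinrank_of_span {C D : IntermediateField K Ω} (h : C ≤ D) {ι : Type*} [Fintype ι]
    (w : ι → Ω) (hw : LinearIndependent C w)
    (hspan : ∀ x : Ω, x ∈ D ↔ x ∈ Submodule.span C (Set.range w)) :
    relfinrank C D = Fintype.card ι := by
  rw [relfinrank_eq_finrank_of_le h]
  have h1 : Subalgebra.toSubmodule (extendScalars h).toSubalgebra =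
      Submodule.span C (Set.range w) := by
    ext x
    exact hspan x
  have h2 := finrank_span_eq_card hw
  rw [← h1] at h2
  exact h2

/-- the compositum with an algebraic extension is a span -/
theorem mem_sup_iff_span {L M L' : IntermediateField K Ω} (hL : L ≤ L')
    (halg : ∀ x ∈ M, IsAlgebraic L x) (x : Ω) :
    x ∈ L' ⊔ M ↔ x ∈ Submodule.span L' (M : Set Ω) := by
  have h0 : L' ⊔ M = (adjoin L' (M : Set Ω)).restrictScalars K := by
    rw [restrictScalars_adjoin_eq_sup, adjoin_self]
  have halg' : ∀ x ∈ (M : Set Ω), IsAlgebraic L' x :=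
    fun x hx => isAlgebraic_mono hL (halg x hx)
  rw [h0, mem_restrictScalars]
  have h1 := adjoin_toSubalgebra_of_isAlgebraic halg'
  constructor
  · intro h
    have h2 : x ∈ (adjoin L' (M : Set Ω)).toSubalgebra := h
    rw [h1] at h2
    exact adjoin_le_span L'.toSubfield M.toSubfield.toSubring x h2
  · intro h
    have h2 : Submodule.span L' (M : Set Ω) ≤
        Subalgebra.toSubmodule (adjoin L' (M : Set Ω)).toSubalgebra := by
      rw [Submodule.span_le]
      exact subset_adjoin _ _
    exact h2 h

theorem exists_finset_of_mem_sup {L kb : IntermediateField K Ω} {d : Ω} (hd : d ∈ L ⊔ kb) :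
    ∃ s : Finset Ω, (s : Set Ω) ⊆ kb ∧ d ∈ L ⊔ adjoin K (s : Set Ω) := by
  have h0 : L ⊔ kb = (adjoin L (kb : Set Ω)).restrictScalars K := by
    rw [restrictScalars_adjoin_eq_sup, adjoin_self]
  rw [h0, mem_restrictScalars] at hd
  obtain ⟨T, hT, h⟩ := exists_finset_of_mem_adjoin hd
  refine ⟨T, hT, ?_⟩
  rw [← restrictScalars_adjoin_eq_sup, mem_restrictScalars]
  exact h

/-- a field generated by finitely many algebraic elements is finite -/
theorem relfinrank_ne_zero_of_fg {L : IntermediateField K Ω} (s : Finset Ω)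
    (hs : ∀ x ∈ s, IsAlgebraic L x) : relfinrank L (L ⊔ adjoin K (s : Set Ω)) ≠ 0 := by
  rw [relfinrank_eq_finrank_of_le le_sup_left]
  have h0 : extendScalars (le_sup_left : L ≤ L ⊔ adjoin K (s : Set Ω)) = adjoin L (s : Set Ω) := by
    apply restrictScalars_injective K
    rw [restrictScalars_adjoin_eq_sup]
    rfl
  rw [h0]
  have : FiniteDimensional L (adjoin L (s : Set Ω)) :=
    finiteDimensional_adjoin fun x hx => (hs x hx).isIntegral
  exact Module.finrank_pos.ne'

theorem relfinrank_ne_zero_iff {L M : IntermediateField K Ω} (h : L ≤ M) :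
    relfinrank L M ≠ 0 ↔ FiniteDimensional L (extendScalars h) := by
  rw [relfinrank_eq_finrank_of_le h]
  constructor
  · intro h1
    exact FiniteDimensional.of_finrank_pos (Nat.pos_of_ne_zero h1)
  · intro h1
    exact Module.finrank_pos.ne'

theorem isAlgebraic_of_relfinrank {L M : IntermediateField K Ω} (h : L ≤ M)
    (h0 : relfinrank L M ≠ 0) : ∀ x ∈ M, IsAlgebraic L x := by
  have := (relfinrank_ne_zero_iff h).mp h0
  intro x hx
  exact (isAlgebraic_iff (S := extendScalars h)).mp
    (Algebra.IsAlgebraic.isAlgebraic (⟨x, hx⟩ : extendScalars h))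

/-- **Stabilisation**: the degree of `M kb / L kb` is already the degree of `M k' / L k'` for
large finite `k'`. -/
theorem stabilise {k0 L M kb : IntermediateField K Ω} (hLM : L ≤ M) (hfin : relfinrank L M ≠ 0)
    (hkb : k0 ≤ kb) :
    ∃ S : Finset Ω, (S : Set Ω) ⊆ kb ∧
      ∀ k', k0 ⊔ adjoin K (S : Set Ω) ≤ k' → k' ≤ kb →
        relfinrank (L ⊔ k') (M ⊔ k') = relfinrank (L ⊔ kb) (M ⊔ kb) := by
  classical
  have hfd := (relfinrank_ne_zero_iff hLM).mp hfin
  have hMalg := isAlgebraic_of_relfinrank hLM hfin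
  have : Module.Free L (extendScalars hLM) := Module.Free.of_divisionRing _ _
  let m := Module.finBasis L (extendScalars hLM)
  set r := Module.finrank L (extendScalars hLM)
  let v : Fin r → Ω := fun i => (m i : Ω)
  have hv : ∀ (L' : IntermediateField K Ω), L ≤ L' → ∀ x : Ω, x ∈ L' ⊔ M ↔
      x ∈ Submodule.span L' (Set.range v) := by
    intro L' hL' x
    rw [mem_sup_iff_span hL' hMalg]
    have h1 : Submodule.span L' (M : Set Ω) = Submodule.span L' (Set.range v) := by
      apply le_antisymm
      · rw [Submodule.span_le]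
        intro y hy
        have h2 : (⟨y, hy⟩ : extendScalars hLM) ∈ Submodule.span L (Set.range m) := by
          rw [m.span_eq]; trivial
        rw [Finsupp.mem_span_range_iff_exists_finsupp] at h2
        obtain ⟨c, hc⟩ := h2
        have h3 : y = c.sum fun i a => a • v i := by
          have := congrArg (extendScalars hLM).val hc
          rw [map_finsuppSum] at this
          exact this.symm
        rw [h3]
        refine Submodule.sum_mem _ fun i _ => ?_
        have h4 : c i • v i = (⟨(c i : Ω), hL' (c i).2⟩ : L') • v i := rfl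
        show c i • v i ∈ _
        rw [h4]
        exact Submodule.smul_mem _ _ (Submodule.subset_span ⟨i, rfl⟩)
      · apply Submodule.span_mono
        rintro _ ⟨i, rfl⟩
        exact (m i).2
    rw [h1]
  obtain ⟨J, a, hainj, hspan, hli⟩ := exists_linearIndependent' (K := ↥(L ⊔ kb)) v
  have : Finite J := Finite.of_injective a hainj
  have : Fintype J := Fintype.ofFinite J
  have hd : ∀ i : Fin r, ∃ c : J →₀ ↥(L ⊔ kb), (c.sum fun j b => b • v (a j)) = v i := by
    intro i
    have h1 : v i ∈ Submodule.span ↥(L ⊔ kb) (Set.range (v ∘ a)) := by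
      rw [hspan]; exact Submodule.subset_span ⟨i, rfl⟩
    exact Finsupp.mem_span_range_iff_exists_finsupp.mp h1
  choose c hc using hd
  choose s hs hcs using fun (i : Fin r) (j : J) => exists_finset_of_mem_sup (c i j).2
  let S : Finset Ω := Finset.univ.biUnion fun i : Fin r => Finset.univ.biUnion fun j : J => s i j
  have hS : (S : Set Ω) ⊆ kb := by
    intro x hx
    simp only [S, Finset.coe_biUnion, Set.mem_iUnion] at hx
    obtain ⟨i, _, j, _, hx⟩ := hx
    exact hs i j hx
  refine ⟨S, hS, ?_⟩
  · intro k' hk' hk'kb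
    have main : ∀ k'' : IntermediateField K Ω, k0 ⊔ adjoin K (S : Set Ω) ≤ k'' → k'' ≤ kb →
        relfinrank (L ⊔ k'') (M ⊔ k'') = Fintype.card J := by
      intro k'' h1 h2
      have hle : L ⊔ k'' ≤ L ⊔ kb := sup_le_sup_left h2 L
      refine relfinrank_of_span (sup_le_sup_right hLM k'') (v ∘ a) ?_ ?_
      · exact linearIndependent_mono hle hli
      · intro x
        have h3 : M ⊔ k'' = (L ⊔ k'') ⊔ M := by
          rw [sup_assoc, sup_comm k'' M, ← sup_assoc, sup_eq_right.mpr hLM]
        rw [h3, hv (L ⊔ k'') le_sup_left]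
        have h4 : Submodule.span ↥(L ⊔ k'') (Set.range v) =
            Submodule.span ↥(L ⊔ k'') (Set.range (v ∘ a)) := by
          apply le_antisymm
          · rw [Submodule.span_le]
            rintro _ ⟨i, rfl⟩
            rw [SetLike.mem_coe, ← hc i]
            refine Submodule.sum_mem _ fun j _ => ?_
            have h5 : ((c i j : ↥(L ⊔ kb)) : Ω) ∈ L ⊔ k'' := by
              refine (sup_le_sup_left ?_ L : L ⊔ adjoin K (s i j : Set Ω) ≤ L ⊔ k'') (hcs i j)
              refine le_trans ?_ (le_trans le_sup_right h1)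
              apply adjoin.mono
              intro x hx
              simp only [S, Finset.coe_biUnion, Set.mem_iUnion]
              exact ⟨i, by simp, j, by simp, hx⟩
            have h6 : (c i j) • v (a j) = (⟨_, h5⟩ : ↥(L ⊔ k'')) • v (a j) := rfl
            show c i j • v (a j) ∈ _
            rw [h6]
            exact Submodule.smul_mem _ _ (Submodule.subset_span ⟨j, rfl⟩)
          · apply Submodule.span_mono
            rintro _ ⟨j, rfl⟩
            exact ⟨a j, rfl⟩
        rw [h4]
    rw [main k' hk' hk'kb, main kb (sup_le hkb (adjoin_le_iff.mpr hS)) le_rfl]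

end Fermat.Agent.AVE
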