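import Fermat.Agent.AVE.LDis

set_option autoImplicit false

open Module IntermediateField

namespace Fermat.Agent.AVE

variable {K Ω : Type*} [Field K] [Field Ω] [Algebra K Ω]

/-- every finite family in `A` linearly independent over `k` is linearly independent over `B` -/
def LD (k A B : IntermediateField K Ω) : Prop := LDis k.toSubfield A.toSubfield B.toSubfield

theorem LD.mono {k A B A' : IntermediateField K Ω} (h : LD k A B) (hA : A' ≤ A) : LD k A' B :=
  fun n e he hei => h n e (fun i => hA (he i)) hei

/-- the subring `A0[B]` -/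
theorem adjoin_le_span (A0 : Subfield Ω) (B : Subring Ω) :
    ∀ r ∈ (Algebra.adjoin A0 (B : Set Ω)).toSubring, r ∈ Submodule.span A0 (B : Set Ω) := by
  intro r hr
  have h1 : r ∈ Subalgebra.toSubmodule (Algebra.adjoin A0 (B : Set Ω)) := hr
  rw [Algebra.adjoin_eq_span] at h1
  have h2 : (Submonoid.closure (B : Set Ω) : Set Ω) = (B : Set Ω) := by
    exact congrArg _ (Submonoid.closure_eq B.toSubmonoid)
  rwa [h2] at h1

theorem closure_adjoin (A0 B : Subfield Ω) :
    Subfield.closure ((Algebra.adjoin A0 (B : Set Ω)).toSubring : Set Ω) = A0 ⊔ B := by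
  apply le_antisymm
  · rw [Subfield.closure_le]
    intro x hx
    have hx' : x ∈ Algebra.adjoin A0 (B : Set Ω) := hx
    induction hx' using Algebra.adjoin_induction with
    | mem y hy => exact (le_sup_right : B ≤ A0 ⊔ B) hy
    | algebraMap c => exact (le_sup_left : A0 ≤ A0 ⊔ B) c.2
    | add a b ha hb h1 h2 => exact add_mem (h1 ha) (h2 hb)
    | mul a b ha hb h1 h2 => exact mul_mem (h1 ha) (h2 hb)
  · apply sup_le
    · intro x hx
      apply Subfield.subset_closure
      exact (Algebra.adjoin A0 (B : Set Ω)).algebraMap_mem ⟨x, hx⟩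
    · intro x hx
      apply Subfield.subset_closure
      exact Algebra.subset_adjoin hx

/-- shift of linear disjointness -/
theorem LD_shift {A B A0 : IntermediateField K Ω} (H : A.LinearDisjoint B) (hA : A0 ≤ A) :
    LD A0 A (A0 ⊔ B) := by
  intro n e he hei
  let b := Basis.ofVectorSpace K B
  have hκ : LinearIndependent A (B.val ∘ b) := H.linearIndependent_right b.linearIndependent
  have hspan : Submodule.span A0.toSubfield (B.toSubfield.toSubring : Set Ω) ≤
      Submodule.span A0.toSubfield (Set.range (B.val ∘ b)) := by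
    rw [Submodule.span_le]
    intro x hx
    have hx' : (⟨x, hx⟩ : B) ∈ Submodule.span K (Set.range b) := by
      rw [b.span_eq]; trivial
    rw [Finsupp.mem_span_range_iff_exists_finsupp] at hx'
    obtain ⟨c, hc⟩ := hx'
    have hx2 : x = c.sum fun i a => a • (b i : Ω) := by
      have := congrArg (B.val) hc
      rw [map_finsuppSum] at this
      rw [← show B.val (⟨x, hx⟩ : B) = x from rfl, ← this]
      rfl
    rw [hx2]
    refine Submodule.sum_mem _ fun i _ => ?_
    have h1 : c i • (b i : Ω) = (⟨algebraMap K Ω (c i), A0.algebraMap_mem (c i)⟩ : A0.toSubfield) •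
        ((B.val ∘ b) i) := by
      rw [Algebra.smul_def]; rfl
    show c i • (b i : Ω) ∈ _
    rw [h1]
    exact Submodule.smul_mem _ _ (Submodule.subset_span ⟨i, rfl⟩)
  have := linearIndependent_closure A0.toSubfield A.toSubfield hA (B.val ∘ b) hκ
    (Algebra.adjoin A0.toSubfield (B.toSubfield : Set Ω)).toSubring
    (fun r hr => hspan (adjoin_le_span _ B.toSubfield.toSubring r hr)) e he hei
  rw [closure_adjoin] at this
  rw [IntermediateField.sup_toSubfield]
  exact this

theorem LDis.family {k A B : Subfield Ω} (h : LDis k A B) {ι : Type*} (e : ι → Ω)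
    (he : ∀ i, e i ∈ A) (hei : LinearIndependent k e) : LinearIndependent B e := by
  rw [linearIndependent_iff_finset_linearIndependent] at hei ⊢
  intro s
  have h1 := hei s
  let f : Fin s.card ≃ s := s.equivFin.symm
  have h2 := h s.card ((e ∘ Subtype.val) ∘ f) (fun i => he _) ((linearIndependent_equiv f).mpr h1)
  exact (linearIndependent_equiv f).mp h2

/-- Degrees under linearly disjoint algebraic extensions. -/
theorem relrank_sup {k C k' : IntermediateField K Ω} (hC : k ≤ C) (hk : k ≤ k')
    (halg : ∀ x ∈ k', IsAlgebraic k x) (H : LD k k' C) :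
    relrank C (C ⊔ k') = relrank k k' := by
  have hLD : (extendScalars hk).LinearDisjoint (extendScalars hC) := by
    let b := Basis.ofVectorSpace k (extendScalars hk)
    refine LinearDisjoint.of_basis_left b ?_
    refine LDis.family H _ (fun i => (b i).2) ?_
    exact b.linearIndependent.map' (extendScalars hk).val.toLinearMap
      (LinearMap.ker_eq_bot.mpr (extendScalars hk).val.injective)
  have : Algebra.IsAlgebraic k (extendScalars hk) := by
    refine ⟨fun x => ?_⟩
    exact (isAlgebraic_iff (S := extendScalars hk)).mpr (halg x.1 x.2)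
  have h1 := hLD.adjoin_rank_eq_rank_left_of_isAlgebraic_left
  rw [relrank_eq_rank_of_le hk, ← h1, relrank_eq_rank_of_le (le_sup_left : C ≤ C ⊔ k')]
  have h2 : (extendScalars (le_sup_left : C ≤ C ⊔ k')) = adjoin C (k' : Set Ω) := by
    apply restrictScalars_injective K
    rw [restrictScalars_adjoin_eq_sup, adjoin_self]
    rfl
  rw [h2]
  rfl

theorem linearIndependent_pow {A : IntermediateField K Ω} {x : Ω} (hx : Transcendental A x) :
    LinearIndependent A fun n : ℕ => x ^ n := by
  have h := (Polynomial.basisMonomials A).linearIndependent.map'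
    (Polynomial.aeval (R := A) x).toLinearMap
    (LinearMap.ker_eq_bot.mpr (transcendental_iff_injective.mp hx))
  have h2 : ((Polynomial.aeval (R := A) x).toLinearMap ∘ ⇑(Polynomial.basisMonomials A)) =
      fun n : ℕ => x ^ n := by
    funext n
    simp
  rw [h2] at h
  exact h

/-- adjoining a transcendental element -/
theorem LD_transcendental {A A0 : IntermediateField K Ω} (hA : A0 ≤ A) {x : Ω}
    (hx : Transcendental A x) : LD A0 A (A0 ⊔ K⟮x⟯) := by
  intro n e he hei
  have hR : ∀ r ∈ (Algebra.adjoin A0.toSubfield {x}).toSubring,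
      r ∈ Submodule.span A0.toSubfield (Set.range fun n : ℕ => x ^ n) := by
    intro r hr
    have h1 : r ∈ Subalgebra.toSubmodule (Algebra.adjoin A0.toSubfield {x}) := hr
    rw [Algebra.adjoin_eq_span] at h1
    refine Submodule.span_mono ?_ h1
    intro y hy
    obtain ⟨n, rfl⟩ := Submonoid.mem_closure_singleton.mp hy
    exact ⟨n, rfl⟩
  have h1 := linearIndependent_closure A0.toSubfield A.toSubfield hA (fun n : ℕ => x ^ n)
    (linearIndependent_pow hx) _ hR e he hei
  have hcl : Subfield.closure ((Algebra.adjoin A0.toSubfield {x}).toSubring : Set Ω) =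
      (A0 ⊔ K⟮x⟯).toSubfield := by
    apply le_antisymm
    · rw [Subfield.closure_le]
      intro y hy
      have hy' : y ∈ Algebra.adjoin A0.toSubfield {x} := hy
      induction hy' using Algebra.adjoin_induction with
      | mem y hy1 =>
        rw [Set.mem_singleton_iff] at hy1
        subst hy1
        exact (le_sup_right : K⟮y⟯ ≤ A0 ⊔ K⟮y⟯) (mem_adjoin_simple_self K y)
      | algebraMap c => exact (le_sup_left : A0 ≤ A0 ⊔ K⟮x⟯) c.2
      | add a b ha hb h1 h2 => exact add_mem (h1 ha) (h2 hb)
      | mul a b ha hb h1 h2 => exact mul_mem (h1 ha) (h2 hb)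
    · rw [IntermediateField.sup_toSubfield]
      apply sup_le
      · intro y hy
        apply Subfield.subset_closure
        exact (Algebra.adjoin A0.toSubfield {x}).algebraMap_mem ⟨y, hy⟩
      · intro y hy
        have h3 : y ∈ Subfield.closure (Set.range (algebraMap K Ω) ∪ {x}) := by
          rw [← adjoin_toSubfield]; exact hy
        refine Subfield.closure_le.mpr ?_ h3
        rintro z (⟨c, rfl⟩ | hz)
        · apply Subfield.subset_closure
          exact (Algebra.adjoin A0.toSubfield {x}).algebraMap_mem
            ⟨algebraMap K Ω c, A0.algebraMap_mem c⟩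
        · apply Subfield.subset_closure
          exact Algebra.subset_adjoin hz
  rw [hcl] at h1
  exact h1

end Fermat.Agent.AVE
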